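import Mathlib
import Fermat.Prelude.Def_Algebra_PatchingDatum

set_option autoImplicit false

namespace Fermat.Agent.LibS57

open MvPowerSeries

section Basis

variable {A : Type*} [CommRing A] {N : Type*} [AddCommGroup N] [Module A N]
  {ι : Type*}

/-- Membership in `I • ⊤` for a free module, in coordinates. -/
theorem mem_ideal_smul_top_iff_repr (B : Module.Basis ι A N) (I : Ideal A) (x : N) :
    x ∈ I • (⊤ : Submodule A N) ↔ ∀ j, B.repr x j ∈ I := by
  constructor
  · intro hx
    refine Submodule.smul_induction_on hx ?_ ?_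
    · intro a ha y _ j
      rw [map_smul, Finsupp.smul_apply, smul_eq_mul]
      exact I.mul_mem_right _ ha
    · intro y z hy hz j
      rw [map_add, Finsupp.add_apply]
      exact I.add_mem (hy j) (hz j)
  · intro h
    rw [← B.linearCombination_repr x, Finsupp.linearCombination_apply]
    refine Submodule.sum_mem _ fun j _ => ?_
    exact Submodule.smul_mem_smul (h j) Submodule.mem_top

end Basis

variable {𝒪 : Type} [CommRing 𝒪] {r : ℕ} {R : Type} [CommRing R] [Algebra 𝒪 R]
  {M : Type} [AddCommGroup M] [Module R M]

/-- The final step of the patching descent: once `L.N` is known to be free over the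
power series ring, the three conclusions follow. -/
theorem final_of_free [Nontrivial M] (L : Algebra.PatchingLevel 𝒪 r R M ⊥)
    (hfree : Module.Free (MvPowerSeries (Fin r) 𝒪) L.N) :
    Module.Free R M ∧ Module.annihilator R M = ⊥ ∧
      RingHom.ker L.ψ = Ideal.span (Set.range fun i : Fin r => L.φ (MvPowerSeries.X i)) := by
  classical
  set A := MvPowerSeries (Fin r) 𝒪 with hA
  set I : Ideal A := Ideal.span (Set.range fun i : Fin r => L.φ (MvPowerSeries.X i)) with hI
  let ι := Module.Free.ChooseBasisIndex A L.N
  let B : Module.Basis ι A L.N := Module.Free.chooseBasis A L.N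
  -- π of finite sums
  have hπsum : ∀ (s : Finset ι) (c : ι → A),
      L.π (∑ j ∈ s, c j • B j) = ∑ j ∈ s, L.ψ (c j) • L.π (B j) := by
    intro s c
    rw [map_sum]
    exact Finset.sum_congr rfl fun j _ => L.π_smul _ _
  -- I ≤ ker ψ
  have hIle : I ≤ RingHom.ker L.ψ := by
    rw [hI, Ideal.span_le]
    rintro _ ⟨i, rfl⟩
    exact L.ψ_φ_X i
  -- N is nontrivial, so the index type is nonempty
  have hNnontriv : Nontrivial L.N := by
    by_contra hN
    rw [not_nontrivial_iff_subsingleton] at hN
    obtain ⟨m, m', hmm'⟩ := exists_pair_ne M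
    obtain ⟨x, rfl⟩ := L.π_surjective m
    obtain ⟨x', rfl⟩ := L.π_surjective m'
    exact hmm' (by rw [Subsingleton.elim x x'])
  have hι : Nonempty ι := by
    by_contra hι
    rw [not_nonempty_iff] at hι
    have : Subsingleton L.N := B.repr.toEquiv.subsingleton
    exact not_subsingleton L.N this
  obtain ⟨i₀⟩ := hι
  -- linear independence of the images
  have hker : ∀ c : ι →₀ A, L.π (Finsupp.linearCombination A B c) = 0 → ∀ j, c j ∈ I := by
    intro c hc j
    have h1 := (L.ker_π _).mp hc
    have h2 := (mem_ideal_smul_top_iff_repr B I _).mp h1 j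
    rwa [B.repr_linearCombination] at h2
  have hkerψ : RingHom.ker L.ψ = I := by
    refine le_antisymm ?_ hIle
    intro f hf
    have h0 : L.π (Finsupp.linearCombination A B (Finsupp.single i₀ f)) = 0 := by
      rw [Finsupp.linearCombination_single, L.π_smul, (RingHom.mem_ker).mp hf, zero_smul]
    have := hker _ h0 i₀
    rwa [Finsupp.single_eq_same] at this
  have hli' : ∀ (s : Finset ι) (g : ι → R),
      ∑ j ∈ s, g j • L.π (B j) = 0 → ∀ j ∈ s, g j = 0 := by
    intro s g hs j hj
    choose lift hlift using L.ψ_surjective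
    have h0 : L.π (∑ j ∈ s, lift (g j) • B j) = 0 := by
      rw [hπsum]
      simpa only [hlift] using hs
    have h1 := (L.ker_π _).mp h0
    have h2 := (mem_ideal_smul_top_iff_repr B I _).mp h1 j
    have h3 : B.repr (∑ j ∈ s, lift (g j) • B j) j = lift (g j) := by
      rw [map_sum, Finsupp.finsetSum_apply]
      rw [Finset.sum_eq_single j]
      · rw [map_smul, B.repr_self, Finsupp.smul_apply, Finsupp.single_eq_same, smul_eq_mul,
          mul_one]
      · intro b _ hbj
        rw [map_smul, B.repr_self, Finsupp.smul_apply, Finsupp.single_eq_of_ne hbj.symm,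
          smul_zero]
      · intro hj'; exact absurd hj hj'
    rw [h3] at h2
    have h4 := hIle h2
    rw [RingHom.mem_ker, hlift] at h4
    exact h4
  have hli : LinearIndependent R (fun j : ι => L.π (B j)) :=
    linearIndependent_iff'.mpr hli'
  have hspan : ⊤ ≤ Submodule.span R (Set.range fun j : ι => L.π (B j)) := by
    intro m _
    obtain ⟨x, rfl⟩ := L.π_surjective m
    rw [← B.linearCombination_repr x, Finsupp.linearCombination_apply, Finsupp.sum, hπsum]
    refine Submodule.sum_mem _ fun j _ => ?_
    exact Submodule.smul_mem _ _ (Submodule.subset_span ⟨j, rfl⟩)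
  let BM : Module.Basis ι R M := Module.Basis.mk hli hspan
  refine ⟨Module.Free.of_basis BM, ?_, hkerψ⟩
  rw [eq_bot_iff]
  intro a ha
  have h1 : a • L.π (B i₀) = 0 := Module.mem_annihilator.mp ha _
  have h2 := hli' {i₀} (fun _ => a) (by rw [Finset.sum_singleton]; exact h1) i₀
    (Finset.mem_singleton_self _)
  exact h2

end Fermat.Agent.LibS57
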